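import Fermat.Agent.LT.Kex.Ray
import Fermat.Agent.IdealL.LogL

/-!
# Characters of the ray class group and prime sums
-/

set_option autoImplicit false

open NumberField Ideal NumberField.InfinitePlace NumberField.mixedEmbedding Filter Topology

open scoped Classical nonZeroDivisors

namespace Fermat.Agent.LT.Kex

open Fermat.Agent.IdealL

set_option linter.unusedSectionVars false

variable {K : Type*} [Field K] [NumberField K] {𝔪 : (Ideal (𝓞 K))⁰}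

/-- a character of the ray class group as a function on ideals -/
noncomputable def rpsi (φ : RayCl 𝔪 →* ℂ) (I : (Ideal (𝓞 K))⁰) : ℂ :=
  if h : IsCoprime (I : Ideal (𝓞 K)) (𝔪 : Ideal (𝓞 K)) then φ (rcl 𝔪 ⟨I, h⟩) else 0

theorem rpsi_of (φ : RayCl 𝔪 →* ℂ) (I : cop 𝔪) : rpsi φ (I : (Ideal (𝓞 K))⁰) = φ (rcl 𝔪 I) :=
  dif_pos I.2

/-- the associated function on integers -/
noncomputable def rg (φ : RayCl 𝔪 →* ℂ) (a : 𝓞 K) : ℂ :=
  if h : a ≠ 0 ∧ IsCoprime (span {a}) (𝔪 : Ideal (𝓞 K)) then φ (rcl 𝔪 (pC a h.1 h.2)) else 0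

theorem rcl_pC_congr (h𝔪 : (𝔪 : Ideal (𝓞 K)) ≠ ⊤) {a b : 𝓞 K}
    (hab : a - b ∈ (𝔪 : Ideal (𝓞 K))) (ha : a ≠ 0) (hb : b ≠ 0)
    (hac : IsCoprime (span {a}) (𝔪 : Ideal (𝓞 K))) (hbc : IsCoprime (span {b}) (𝔪 : Ideal (𝓞 K))) :
    rcl 𝔪 (pC a ha hac) = rcl 𝔪 (pC b hb hbc) := by
  obtain ⟨b', hb'⟩ := isCoprime_span_iff.mp hbc
  have hb'0 : b' ≠ 0 := ne_zero_of_sub_mem h𝔪 (b := b) (by rwa [mul_comm])
  rw [rcl_eq]
  refine ⟨b * b', a * b', hb', ?_, mul_ne_zero hb hb'0, mul_ne_zero ha hb'0, ?_⟩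
  · have : a * b' - 1 = (a - b) * b' + (b * b' - 1) := by ring
    rw [this]; exact add_mem (Ideal.mul_mem_right _ _ hab) hb'
  · rw [coe_pC, coe_pC, span_singleton_mul_span_singleton, span_singleton_mul_span_singleton]
    congr 2; ring

theorem isCoprime_congr {𝔞 : Ideal (𝓞 K)} {a b : 𝓞 K} (hab : a - b ∈ 𝔞)
    (hac : IsCoprime (span {a}) 𝔞) : IsCoprime (span {b}) 𝔞 := by
  obtain ⟨c, hc⟩ := isCoprime_span_iff.mp hac
  refine isCoprime_span_iff.mpr ⟨c, ?_⟩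
  have : b * c - 1 = -((a - b) * c) + (a * c - 1) := by ring
  rw [this]; exact add_mem (neg_mem (Ideal.mul_mem_right _ _ hab)) hc

theorem norm_char (h𝔪 : (𝔪 : Ideal (𝓞 K)) ≠ ⊤) (φ : RayCl 𝔪 →* ℂ) (x : RayCl 𝔪) :
    ‖φ x‖ = 1 := by
  let _ := rayGroup h𝔪
  have := finite_rayCl h𝔪
  have h1 : φ x ^ Nat.card (RayCl 𝔪) = 1 := by
    have h2 : x ^ Nat.card (RayCl 𝔪) = 1 := pow_card_eq_one'
    rw [← _root_.map_pow, h2, _root_.map_one]
  have h3 : ‖φ x‖ ^ Nat.card (RayCl 𝔪) = 1 := by rw [← norm_pow, h1, norm_one]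
  exact (pow_eq_one_iff_of_nonneg (norm_nonneg _) Nat.card_pos.ne').mp h3

theorem isRayChar_rpsi (h𝔪 : (𝔪 : Ideal (𝓞 K)) ≠ ⊤) (φ : RayCl 𝔪 →* ℂ) :
    IsRayChar 𝔪 (rpsi φ) ∅ (rg φ) where
  map_one := by
    have := rpsi_of φ 1
    rw [_root_.map_one, _root_.map_one] at this
    exact this
  map_mul I J := by
    by_cases hI : IsCoprime (I : Ideal (𝓞 K)) (𝔪 : Ideal (𝓞 K))
    · by_cases hJ : IsCoprime (J : Ideal (𝓞 K)) (𝔪 : Ideal (𝓞 K))
      · have := rpsi_of φ (⟨I, hI⟩ * ⟨J, hJ⟩)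
        rw [_root_.map_mul, _root_.map_mul, ← rpsi_of, ← rpsi_of] at this
        exact this
      · have h1 : ¬ IsCoprime ((I * J : (Ideal (𝓞 K))⁰) : Ideal (𝓞 K)) (𝔪 : Ideal (𝓞 K)) := by
          rw [Submonoid.coe_mul]
          exact fun h => hJ (IsCoprime.of_mul_left_right h)
        unfold rpsi
        rw [dif_neg h1, dif_neg hJ, mul_zero]
    · have h1 : ¬ IsCoprime ((I * J : (Ideal (𝓞 K))⁰) : Ideal (𝓞 K)) (𝔪 : Ideal (𝓞 K)) := by
        rw [Submonoid.coe_mul]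
        exact fun h => hI (IsCoprime.of_mul_left_left h)
      unfold rpsi
      rw [dif_neg h1, dif_neg hI, zero_mul]
  zero I hI := dif_neg hI
  norm_one I hI := by
    have := rpsi_of φ ⟨I, hI⟩
    rw [this]
    exact norm_char h𝔪 φ _
  periodic a b hab := by
    by_cases ha : IsCoprime (span {a}) (𝔪 : Ideal (𝓞 K))
    · have hb := isCoprime_congr hab ha
      have ha0 : a ≠ 0 := by
        obtain ⟨c, hc⟩ := isCoprime_span_iff.mp ha
        exact ne_zero_of_sub_mem h𝔪 hc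
      have hb0 : b ≠ 0 := by
        obtain ⟨c, hc⟩ := isCoprime_span_iff.mp hb
        exact ne_zero_of_sub_mem h𝔪 hc
      unfold rg
      rw [dif_pos ⟨ha0, ha⟩, dif_pos ⟨hb0, hb⟩, rcl_pC_congr h𝔪 hab ha0 hb0 ha hb]
    · have hb : ¬ IsCoprime (span {b}) (𝔪 : Ideal (𝓞 K)) := fun hb =>
        ha (isCoprime_congr (by rw [← neg_sub]; exact neg_mem hab) hb)
      unfold rg
      rw [dif_neg (fun h => ha h.2), dif_neg (fun h => hb h.2)]
  principal a ha := by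
    have h1 : sg (∅ : Finset {w : InfinitePlace K // IsReal w}) (mixedEmbedding K (a : K)) = 1 := by
      simp [sg]
    rw [h1, Complex.ofReal_one, one_mul]
    unfold rpsi rg
    by_cases hc : IsCoprime (span {a}) (𝔪 : Ideal (𝓞 K))
    · rw [dif_pos (show IsCoprime ((pI a ha : (Ideal (𝓞 K))⁰) : Ideal (𝓞 K)) _ from hc),
        dif_pos ⟨ha, hc⟩]
      rfl
    · rw [dif_neg (show ¬ IsCoprime ((pI a ha : (Ideal (𝓞 K))⁰) : Ideal (𝓞 K)) _ from hc),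
        dif_neg (fun h => hc h.2)]

/-- the prime sum of a nontrivial character is bounded above -/
theorem exists_re_le_of_ne (h𝔪 : (𝔪 : Ideal (𝓞 K)) ≠ ⊤) (φ : RayCl 𝔪 →* ℂ)
    {x : RayCl 𝔪} (hx : φ x ≠ 1) :
    ∃ C : ℝ, ∀ s ∈ Set.Ioc (1 : ℝ) 2, (Psum (rpsi φ) s).re ≤ C := by
  have hr := isRayChar_rpsi h𝔪 φ
  obtain ⟨I, rfl⟩ := rcl_surjective 𝔪 x
  obtain ⟨ℓ, hℓ⟩ := exists_tendsto_L hr (I₀ := (I : (Ideal (𝓞 K))⁰)) I.2 (by rwa [rpsi_of])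
  exact exists_re_le hr.map_one hr.map_mul hr.norm_le hℓ

end Fermat.Agent.LT.Kex
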