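import Fermat.Agent.IdealL.RayLimit

/-!
# The ray class group of a modulus (without signs) and its characters as ray class characters
-/

set_option autoImplicit false

open NumberField Ideal NumberField.InfinitePlace NumberField.mixedEmbedding

open scoped Classical nonZeroDivisors

namespace Fermat.Agent.LT.Kex

open Fermat.Agent.IdealL

set_option linter.unusedSectionVars false

variable {K : Type*} [Field K] [NumberField K]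

/-- ideals prime to the modulus -/
def cop (𝔪 : (Ideal (𝓞 K))⁰) : Submonoid (Ideal (𝓞 K))⁰ where
  carrier := {I | IsCoprime (I : Ideal (𝓞 K)) (𝔪 : Ideal (𝓞 K))}
  one_mem' := by
    show IsCoprime (((1 : (Ideal (𝓞 K))⁰)) : Ideal (𝓞 K)) (𝔪 : Ideal (𝓞 K))
    rw [Submonoid.coe_one]; exact isCoprime_one_left
  mul_mem' := fun {a b} ha hb => by
    show IsCoprime ((a * b : (Ideal (𝓞 K))⁰) : Ideal (𝓞 K)) (𝔪 : Ideal (𝓞 K))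
    rw [Submonoid.coe_mul]; exact IsCoprime.mul_left ha hb

theorem mem_cop {𝔪 I : (Ideal (𝓞 K))⁰} :
    I ∈ cop 𝔪 ↔ IsCoprime (I : Ideal (𝓞 K)) (𝔪 : Ideal (𝓞 K)) := Iff.rfl

theorem sub_one_mul_mem {𝔪 : Ideal (𝓞 K)} {x y : 𝓞 K} (hx : x - 1 ∈ 𝔪) (hy : y - 1 ∈ 𝔪) :
    x * y - 1 ∈ 𝔪 := by
  have : x * y - 1 = (x - 1) * y + (y - 1) := by ring
  rw [this]
  exact add_mem (Ideal.mul_mem_right _ _ hx) hy

/-- ray equivalence of ideals prime to the modulus -/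
def rayCon (𝔪 : (Ideal (𝓞 K))⁰) : Con (cop 𝔪) where
  r I J := ∃ x y : 𝓞 K, x - 1 ∈ (𝔪 : Ideal (𝓞 K)) ∧ y - 1 ∈ (𝔪 : Ideal (𝓞 K)) ∧ x ≠ 0 ∧ y ≠ 0 ∧
    span {x} * ((I : (Ideal (𝓞 K))⁰) : Ideal (𝓞 K)) =
      span {y} * ((J : (Ideal (𝓞 K))⁰) : Ideal (𝓞 K))
  iseqv := {
    refl := fun I => ⟨1, 1, by simp, by simp, one_ne_zero, one_ne_zero, rfl⟩
    symm := fun {I J} ⟨x, y, hx, hy, hx0, hy0, h⟩ => ⟨y, x, hy, hx, hy0, hx0, h.symm⟩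
    trans := fun {I J L} ⟨x, y, hx, hy, hx0, hy0, h⟩ ⟨x', y', hx', hy', hx0', hy0', h'⟩ => by
      refine ⟨x * x', y * y', sub_one_mul_mem hx hx', sub_one_mul_mem hy hy',
        mul_ne_zero hx0 hx0', mul_ne_zero hy0 hy0', ?_⟩
      rw [← span_singleton_mul_span_singleton, ← span_singleton_mul_span_singleton,
        mul_comm (span {x}), mul_assoc, h, mul_left_comm, h', mul_assoc] }
  mul' := fun {I J L N} ⟨x, y, hx, hy, hx0, hy0, h⟩ ⟨x', y', hx', hy', hx0', hy0', h'⟩ => by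
    refine ⟨x * x', y * y', sub_one_mul_mem hx hx', sub_one_mul_mem hy hy',
      mul_ne_zero hx0 hx0', mul_ne_zero hy0 hy0', ?_⟩
    rw [Submonoid.coe_mul, Submonoid.coe_mul, Submonoid.coe_mul, Submonoid.coe_mul,
      ← span_singleton_mul_span_singleton, ← span_singleton_mul_span_singleton,
      mul_mul_mul_comm, h, h', mul_mul_mul_comm]

/-- the ray class group -/
abbrev RayCl (𝔪 : (Ideal (𝓞 K))⁰) := (rayCon 𝔪).Quotient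

/-- the class of an ideal -/
def rcl (𝔪 : (Ideal (𝓞 K))⁰) : cop 𝔪 →* RayCl 𝔪 := (rayCon 𝔪).mk'

theorem rcl_surjective (𝔪 : (Ideal (𝓞 K))⁰) : Function.Surjective (rcl 𝔪) :=
  (rayCon 𝔪).mk'_surjective

theorem rcl_eq {𝔪 : (Ideal (𝓞 K))⁰} {I J : cop 𝔪} :
    rcl 𝔪 I = rcl 𝔪 J ↔ ∃ x y : 𝓞 K, x - 1 ∈ (𝔪 : Ideal (𝓞 K)) ∧ y - 1 ∈ (𝔪 : Ideal (𝓞 K)) ∧
      x ≠ 0 ∧ y ≠ 0 ∧ span {x} * ((I : (Ideal (𝓞 K))⁰) : Ideal (𝓞 K)) =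
      span {y} * ((J : (Ideal (𝓞 K))⁰) : Ideal (𝓞 K)) := (rayCon 𝔪).eq

theorem isCoprime_span_iff {𝔪 : Ideal (𝓞 K)} {a : 𝓞 K} :
    IsCoprime (span {a}) 𝔪 ↔ ∃ b : 𝓞 K, a * b - 1 ∈ 𝔪 := by
  rw [Ideal.isCoprime_iff_exists]
  constructor
  · rintro ⟨u, hu, v, hv, huv⟩
    obtain ⟨b, rfl⟩ := Ideal.mem_span_singleton.mp hu
    refine ⟨b, ?_⟩
    have : a * b - 1 = -v := by rw [← huv]; ring
    rw [this]; exact neg_mem hv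
  · rintro ⟨b, hb⟩
    exact ⟨a * b, Ideal.mem_span_singleton.mpr (dvd_mul_right a b), -(a * b - 1), neg_mem hb,
      by ring⟩

theorem ne_zero_of_sub_mem {𝔪 : Ideal (𝓞 K)} (h𝔪 : 𝔪 ≠ ⊤) {a b : 𝓞 K} (h : a * b - 1 ∈ 𝔪) :
    a ≠ 0 := by
  rintro rfl
  apply h𝔪
  rw [Ideal.eq_top_iff_one]
  have : (1 : 𝓞 K) = -(0 * b - 1) := by ring
  rw [this]; exact neg_mem h

/-- the principal ideal of an element prime to `𝔪` -/
noncomputable def pC {𝔪 : (Ideal (𝓞 K))⁰} (a : 𝓞 K) (ha : a ≠ 0)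
    (hc : IsCoprime (span {a}) (𝔪 : Ideal (𝓞 K))) : cop 𝔪 := ⟨pI a ha, hc⟩

theorem coe_pC {𝔪 : (Ideal (𝓞 K))⁰} (a : 𝓞 K) (ha : a ≠ 0)
    (hc : IsCoprime (span {a}) (𝔪 : Ideal (𝓞 K))) :
    (((pC a ha hc : cop 𝔪) : (Ideal (𝓞 K))⁰) : Ideal (𝓞 K)) = span {a} := rfl

theorem exists_mul_eq {𝔪 : (Ideal (𝓞 K))⁰} (I : cop 𝔪) {J : (Ideal (𝓞 K))⁰}
    (hJ : IsCoprime (J : Ideal (𝓞 K)) (𝔪 : Ideal (𝓞 K)))
    (hIJ : ClassGroup.mk0 J = (ClassGroup.mk0 (I : (Ideal (𝓞 K))⁰))⁻¹) :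
    ∃ a : 𝓞 K, a ≠ 0 ∧ IsCoprime (span {a}) (𝔪 : Ideal (𝓞 K)) ∧
      ((I : (Ideal (𝓞 K))⁰) : Ideal (𝓞 K)) * (J : Ideal (𝓞 K)) = span {a} := by
  have h1 : ClassGroup.mk0 ((I : (Ideal (𝓞 K))⁰) * J) = 1 := by
    rw [_root_.map_mul, hIJ, mul_inv_cancel]
  rw [mk0_eq_one] at h1
  obtain ⟨a, ha⟩ := h1.principal
  have ha' : ((I : (Ideal (𝓞 K))⁰) : Ideal (𝓞 K)) * (J : Ideal (𝓞 K)) = span {a} := by
    rw [← Submonoid.coe_mul, ha]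
  refine ⟨a, ?_, ?_, ha'⟩
  · rintro rfl
    rw [Ideal.span_singleton_eq_bot.mpr rfl, ← Ideal.zero_eq_bot, mul_eq_zero] at ha'
    exact ha'.elim (nonZeroDivisors.coe_ne_zero _) (nonZeroDivisors.coe_ne_zero _)
  · rw [← ha']; exact IsCoprime.mul_left I.2 hJ

theorem exists_inv {𝔪 : (Ideal (𝓞 K))⁰} (h𝔪 : (𝔪 : Ideal (𝓞 K)) ≠ ⊤) (I : cop 𝔪) :
    ∃ J : cop 𝔪, rcl 𝔪 (I * J) = 1 := by
  obtain ⟨J, hJ, hIJ⟩ := exists_coprime_rep 𝔪 (ClassGroup.mk0 (I : (Ideal (𝓞 K))⁰))⁻¹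
  obtain ⟨a, ha0, hac, ha⟩ := exists_mul_eq I hJ hIJ
  obtain ⟨b, hb⟩ := isCoprime_span_iff.mp hac
  have hb' : b * a - 1 ∈ (𝔪 : Ideal (𝓞 K)) := by rwa [mul_comm]
  have hb0 : b ≠ 0 := ne_zero_of_sub_mem h𝔪 hb'
  refine ⟨⟨J, hJ⟩ * pC b hb0 (isCoprime_span_iff.mpr ⟨a, hb'⟩), ?_⟩
  rw [← (rcl 𝔪).map_one, rcl_eq]
  refine ⟨1, a * b, by simp, hb, one_ne_zero, mul_ne_zero ha0 hb0, ?_⟩
  change span {1} * (((I : (Ideal (𝓞 K))⁰) : Ideal (𝓞 K)) * ((J : Ideal (𝓞 K)) * span {b})) =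
    span {a * b} * (1 : Ideal (𝓞 K))
  rw [← mul_assoc (_ : Ideal (𝓞 K)) (J : Ideal (𝓞 K)), ha, span_singleton_mul_span_singleton,
    span_singleton_one, ← Ideal.one_eq_top, one_mul, mul_one]

/-- the group structure -/
noncomputable def rayGroup {𝔪 : (Ideal (𝓞 K))⁰} (h𝔪 : (𝔪 : Ideal (𝓞 K)) ≠ ⊤) :
    CommGroup (RayCl 𝔪) :=
  commGroupOfIsUnit fun a => by
    obtain ⟨I, rfl⟩ := rcl_surjective 𝔪 a
    obtain ⟨J, hJ⟩ := exists_inv h𝔪 I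
    exact IsUnit.of_mul_eq_one (rcl 𝔪 J) (by rw [← _root_.map_mul, hJ])

theorem finite_rayCl {𝔪 : (Ideal (𝓞 K))⁰} (h𝔪 : (𝔪 : Ideal (𝓞 K)) ≠ ⊤) :
    Finite (RayCl 𝔪) := by
  have : Finite (𝓞 K ⧸ (𝔪 : Ideal (𝓞 K))) :=
    Ideal.finiteQuotientOfFreeOfNeBot _ (nonZeroDivisors.coe_ne_zero 𝔪)
  choose R hR hRc using exists_coprime_rep 𝔪
  let lift : 𝓞 K ⧸ (𝔪 : Ideal (𝓞 K)) → 𝓞 K := fun u =>
    (Ideal.Quotient.mk_surjective u).choose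
  have hlift : ∀ u, Ideal.Quotient.mk (𝔪 : Ideal (𝓞 K)) (lift u) = u := fun u =>
    (Ideal.Quotient.mk_surjective u).choose_spec
  let f : ClassGroup (𝓞 K) × (𝓞 K ⧸ (𝔪 : Ideal (𝓞 K))) → RayCl 𝔪 := fun p =>
    if h : lift p.2 ≠ 0 ∧ IsCoprime (span {lift p.2}) (𝔪 : Ideal (𝓞 K)) then
      rcl 𝔪 (⟨R p.1, hR p.1⟩ * pC (lift p.2) h.1 h.2) else 1
  refine Finite.of_surjective f fun x => ?_
  obtain ⟨I, rfl⟩ := rcl_surjective 𝔪 x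
  set c := ClassGroup.mk0 (I : (Ideal (𝓞 K))⁰) with hc
  obtain ⟨L, hL, hIL⟩ := exists_coprime_rep 𝔪 c⁻¹
  obtain ⟨a, ha0, hac, ha⟩ := exists_mul_eq I hL hIL
  obtain ⟨b, hb0, hbc, hb⟩ := exists_mul_eq ⟨R c, hR c⟩ hL (by rw [hIL, hRc])
  obtain ⟨b', hb'⟩ := isCoprime_span_iff.mp hbc
  obtain ⟨a', ha'⟩ := isCoprime_span_iff.mp hac
  set u := Ideal.Quotient.mk (𝔪 : Ideal (𝓞 K)) (a * b') with hu
  have he : lift u - a * b' ∈ (𝔪 : Ideal (𝓞 K)) := by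
    rw [← Ideal.Quotient.eq, hlift]
  -- an inverse of `e` modulo `𝔪`
  have hee : lift u * (a' * b) - 1 ∈ (𝔪 : Ideal (𝓞 K)) := by
    have h1 : lift u * (a' * b) - 1 = (lift u - a * b') * (a' * b) +
        ((a * a') * (b * b') - 1) := by ring
    rw [h1]
    exact add_mem (Ideal.mul_mem_right _ _ he) (sub_one_mul_mem ha' hb')
  have he0 : lift u ≠ 0 := ne_zero_of_sub_mem h𝔪 hee
  have hec : IsCoprime (span {lift u}) (𝔪 : Ideal (𝓞 K)) := isCoprime_span_iff.mpr ⟨_, hee⟩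
  have hb'0 : b' ≠ 0 := ne_zero_of_sub_mem h𝔪 (b := b) (by rwa [mul_comm])
  have ha'0 : a' ≠ 0 := ne_zero_of_sub_mem h𝔪 (b := a) (by rwa [mul_comm])
  refine ⟨(c, u), ?_⟩
  simp only [f]
  rw [dif_pos ⟨he0, hec⟩]
  symm
  rw [rcl_eq]
  -- `(b) I = (a) R c`
  have hmain : span {b} * ((I : (Ideal (𝓞 K))⁰) : Ideal (𝓞 K)) =
      span {a} * (R c : Ideal (𝓞 K)) := by
    rw [← ha, ← hb]; ring
  refine ⟨(b * b') * (lift u * (a' * b)), (a * b') * (a' * b), sub_one_mul_mem hb' hee, ?_,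
    mul_ne_zero (mul_ne_zero hb0 hb'0) (mul_ne_zero he0 (mul_ne_zero ha'0 hb0)),
    mul_ne_zero (mul_ne_zero ha0 hb'0) (mul_ne_zero ha'0 hb0), ?_⟩
  · have h1 : a * b' * (a' * b) - 1 = (a * a') * (b * b') - 1 := by ring
    rw [h1]; exact sub_one_mul_mem ha' hb'
  · have h2 : (b * b') * (lift u * (a' * b)) = b * (b' * (lift u * (a' * b))) := by ring
    have h3 : (a * b') * (a' * b) = a * (b' * (a' * b)) := by ring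
    have h4 : b' * (lift u * (a' * b)) = lift u * (b' * (a' * b)) := by ring
    rw [h2, h3, h4, ← span_singleton_mul_span_singleton, ← span_singleton_mul_span_singleton,
      ← span_singleton_mul_span_singleton a, Submonoid.coe_mul, Submonoid.coe_mul, coe_pC,
      mul_right_comm, hmain]
    ring

end Fermat.Agent.LT.Kex
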